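import Mathlib.Algebra.Ring.Commute
import Mathlib.Algebra.Algebra.Basic
import Mathlib.Tactic.Ring
import Mathlib.Tactic.NoncommRing
import Mathlib.Tactic.Abel
import Mathlib.Tactic.LinearCombination

/-!
# ES/S31 : Dickson polynomials (power sums of the two roots of `X² - tX + d`)

`dick t d j` is defined by `D₀ = 2`, `D₁ = t`, `D_{j+2} = t D_{j+1} - d D_j`.
If `φ² - tφ + d = 0` with `t` commuting with `φ`, then `(φ^j)² - D_j φ^j + d^j = 0`.
-/

set_option autoImplicit false

namespace Fermat.Agent.ES.S31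

/-- The Dickson sequence `D₀ = 2`, `D₁ = t`, `D_{j+2} = t D_{j+1} - d D_j`. -/
def dick {R : Type*} [Ring R] (t d : R) : ℕ → R
  | 0 => 2
  | 1 => t
  | (j + 2) => t * dick t d (j + 1) - d * dick t d j

@[simp] theorem dick_zero {R : Type*} [Ring R] (t d : R) : dick t d 0 = 2 := rfl
@[simp] theorem dick_one {R : Type*} [Ring R] (t d : R) : dick t d 1 = t := rfl
theorem dick_succ_succ {R : Type*} [Ring R] (t d : R) (j : ℕ) :
    dick t d (j + 2) = t * dick t d (j + 1) - d * dick t d j := rfl

theorem map_dick {R S : Type*} [Ring R] [Ring S] (f : R →+* S) (t d : R) (j : ℕ) :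
    f (dick t d j) = dick (f t) (f d) j := by
  induction j using Nat.twoStepInduction with
  | zero => simp [map_ofNat]
  | one => simp
  | more j h0 h1 => rw [dick_succ_succ, dick_succ_succ, map_sub, map_mul, map_mul, h0, h1]

/-- `D_j(x + y, xy) = x^j + y^j` for commuting `x`, `y`. -/
theorem dick_add_mul {R : Type*} [Ring R] (x y : R) (h : Commute x y) (j : ℕ) :
    dick (x + y) (x * y) j = x ^ j + y ^ j := by
  induction j using Nat.twoStepInduction with
  | zero => simp; norm_num
  | one => simp
  | more j h0 h1 =>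
    rw [dick_succ_succ, h0, h1]
    have e1 : y * x ^ (j + 1) = x ^ (j + 1) * y := (h.symm.pow_right _).eq
    have e2 : x * y * x ^ j = x ^ (j + 1) * y := by
      rw [mul_assoc, (h.symm.pow_right j).eq, ← mul_assoc, ← pow_succ']
    have e3 : x * y * y ^ j = x * y ^ (j + 1) := by rw [mul_assoc, ← pow_succ']
    calc (x + y) * (x ^ (j + 1) + y ^ (j + 1)) - x * y * (x ^ j + y ^ j)
        = x * x ^ (j + 1) + x * y ^ (j + 1) + y * x ^ (j + 1) + y * y ^ (j + 1)
            - x * y * x ^ j - x * y * y ^ j := by noncomm_ring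
      _ = x * x ^ (j + 1) + y * y ^ (j + 1) := by rw [e1, e2, e3]; abel
      _ = x ^ (j + 2) + y ^ (j + 2) := by rw [← pow_succ', ← pow_succ']

/-- The quadratic relation for powers. -/
theorem pow_quadratic {R : Type*} [Ring R] (x t d : R) (htx : Commute t x)
    (h : x * x - t * x + d = 0) (j : ℕ) :
    x ^ j * x ^ j - dick t d j * x ^ j + d ^ j = 0 := by
  have hc : Commute x (t - x) := (htx.symm).sub_right (Commute.refl x)
  have ht : t = x + (t - x) := by abel
  have hd : d = x * (t - x) := by
    have : x * (t - x) = -(x * x - t * x) := by rw [mul_sub, htx.symm.eq]; abel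
    rw [this, eq_neg_iff_add_eq_zero, add_comm]; exact h
  have h1 := dick_add_mul x (t - x) hc j
  rw [← ht, ← hd] at h1
  rw [h1, hd, hc.mul_pow, add_mul, (hc.symm.pow_pow j j).eq]
  abel

end Fermat.Agent.ES.S31
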