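import Fermat.Agent.S54.Frobenius
import Fermat.Prelude.Def_EllipticCurve_FrobeniusTrace
import Fermat.Prelude.Def_FLTPrelim_Ramification

/-!
# ES/S31 : Frobenius and inertia on roots of unity of order prime to the residue characteristic
-/

set_option autoImplicit false

namespace Fermat.Agent.ES.S31

local notation "Qbar" => AlgebraicClosure ℚ
local notation "GalQ" => (AlgebraicClosure ℚ ≃ₐ[ℚ] AlgebraicClosure ℚ)

theorem mem_of_pow_eq_one (A : ValuationSubring Qbar) {m : ℕ} (hm0 : m ≠ 0) {z : Qbar}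
    (hz : z ^ m = 1) : z ∈ A :=
  Fermat.Agent.S54.mem_of_isIntegral A
    (IsIntegral.of_pow (Nat.pos_of_ne_zero hm0) (by rw [hz]; exact isIntegral_one))

/-- Roots of unity of order prime to the residue characteristic are distinct modulo `𝔪_A`. -/
theorem eq_of_sub_mem_nonunits (A : ValuationSubring Qbar) {ℓ m : ℕ} (hℓ : ℓ.Prime)
    (hA : A.LiesOverPrime ℓ) (hm : ¬ ℓ ∣ m) {x y : Qbar} (hx : x ^ m = 1) (hy : y ^ m = 1)
    (hxy : y - x ∈ A.nonunits) : y = x := by
  have hm0 : m ≠ 0 := fun h => hm (h ▸ dvd_zero ℓ)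
  have hx0 : x ≠ 0 := by
    rintro rfl
    rw [zero_pow hm0] at hx
    exact zero_ne_one hx
  set u : Qbar := y / x with hu
  have hum : u ^ m = 1 := by rw [hu, div_pow, hx, hy, div_one]
  have huA : u ∈ A := mem_of_pow_eq_one A hm0 hum
  have hxinv : x⁻¹ ∈ A := mem_of_pow_eq_one A hm0 (by rw [inv_pow, hx, inv_one])
  have hu1 : u - 1 ∈ A.nonunits := by
    have : u - 1 = (y - x) * x⁻¹ := by rw [hu]; field_simp
    rw [this]
    exact Fermat.Agent.S54.nonunits_mul_mem A hxy hxinv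
  by_contra hne
  have hune : u - 1 ≠ 0 := by
    intro h
    apply hne
    have : u = 1 := sub_eq_zero.mp h
    rw [hu, div_eq_one_iff_eq hx0] at this
    exact this
  have hgeom : ∑ i ∈ Finset.range m, u ^ i = 0 := by
    have := mul_geom_sum u m
    rw [hum, sub_self] at this
    exact (mul_eq_zero.mp this).resolve_left hune
  -- `m = ∑ (1 - u^i)` lies in the maximal ideal
  have hmem : (m : Qbar) ∈ A.nonunits := by
    have h1 : (m : Qbar) = ∑ i ∈ Finset.range m, (1 - u ^ i) := by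
      rw [Finset.sum_sub_distrib, hgeom]; simp
    rw [h1]
    refine sum_mem fun i _ => ?_
    have h2 : 1 - u ^ i = (u - 1) * (-∑ k ∈ Finset.range i, u ^ k) := by
      rw [mul_neg, mul_geom_sum]; ring
    rw [h2]
    exact Fermat.Agent.S54.nonunits_mul_mem A hu1
      (A.neg_mem _ (sum_mem fun k _ => A.pow_mem huA k))
  have hcop : IsCoprime (ℓ : ℤ) (m : ℤ) :=
    Nat.isCoprime_iff_coprime.mpr ((Nat.Prime.coprime_iff_not_dvd hℓ).mpr hm)
  obtain ⟨a, b, hab⟩ := hcop
  have h1 : ((ℓ : Qbar) * (a : Qbar) + (m : Qbar) * (b : Qbar)) = 1 := by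
    have := congrArg (Int.cast : ℤ → Qbar) hab
    push_cast at this
    linear_combination this
  have hint : ∀ z : ℤ, (z : Qbar) ∈ A := fun z => intCast_mem A z
  have h2 : (1 : Qbar) ∈ A.nonunits := by
    rw [← h1]
    exact A.nonunits.add_mem (Fermat.Agent.S54.nonunits_mul_mem A hA (hint a))
      (Fermat.Agent.S54.nonunits_mul_mem A hmem (hint b))
  exact Fermat.Agent.S54.one_not_mem_nonunits A h2

/-- A Frobenius element at `A ∣ ℓ` raises roots of unity of order prime to `ℓ` to the `ℓ`-th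
power. -/
theorem frobenius_apply_root (A : ValuationSubring Qbar) {ℓ m : ℕ} (hℓ : ℓ.Prime)
    (hA : A.LiesOverPrime ℓ) (hm : ¬ ℓ ∣ m) {φ : GalQ} (hφ : A.IsFrobeniusAt φ ℓ) {z : Qbar}
    (hz : z ^ m = 1) : φ z = z ^ ℓ := by
  have hm0 : m ≠ 0 := fun h => hm (h ▸ dvd_zero ℓ)
  obtain ⟨hdec, hfr⟩ := hφ
  let a : A := ⟨z, mem_of_pow_eq_one A hm0 hz⟩
  have h1 := hfr (IsLocalRing.residue A a)
  rw [← IsLocalRing.ResidueField.residue_smul, ← map_pow, ← sub_eq_zero, ← map_sub,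
      IsLocalRing.residue_eq_zero_iff, ← ValuationSubring.coe_mem_nonunits_iff] at h1
  have h2 : (((⟨φ, hdec⟩ : A.decompositionSubgroup ℚ) • a - a ^ ℓ : A) : Qbar) = φ z - z ^ ℓ := rfl
  rw [h2] at h1
  refine eq_of_sub_mem_nonunits A hℓ hA hm ?_ ?_ h1
  · rw [← pow_mul, mul_comm, pow_mul, hz, one_pow]
  · rw [← map_pow, hz, map_one]

/-- Inertia at `A ∣ ℓ` fixes the roots of unity of order prime to `ℓ`. -/
theorem inertia_apply_root (A : ValuationSubring Qbar) {ℓ m : ℕ} (hℓ : ℓ.Prime)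
    (hA : A.LiesOverPrime ℓ) (hm : ¬ ℓ ∣ m) {σ : GalQ} (hσ : σ ∈ A.inertiaSubgroupIn ℚ) {z : Qbar}
    (hz : z ^ m = 1) : σ z = z := by
  have hm0 : m ≠ 0 := fun h => hm (h ▸ dvd_zero ℓ)
  obtain ⟨ι', hι', rfl⟩ := hσ
  let a : A := ⟨z, mem_of_pow_eq_one A hm0 hz⟩
  have h1 : ι' • (IsLocalRing.residue A a) = IsLocalRing.residue A a := by
    have := MonoidHom.mem_ker.mp hι'
    exact congrArg (fun f : RingAut _ => f (IsLocalRing.residue A a)) this
  rw [← IsLocalRing.ResidueField.residue_smul, ← sub_eq_zero, ← map_sub,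
      IsLocalRing.residue_eq_zero_iff, ← ValuationSubring.coe_mem_nonunits_iff] at h1
  have h2 : ((ι' • a - a : A) : Qbar) = (A.decompositionSubgroup ℚ).subtype ι' z - z := rfl
  rw [h2] at h1
  refine eq_of_sub_mem_nonunits A hℓ hA hm hz ?_ h1
  rw [← map_pow, hz, map_one]

end Fermat.Agent.ES.S31
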