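import Fermat.Agent.S53.Burnside
import Fermat.Prelude.Def_GaloisRep_Adic

/-!
# ES/S31 : a residually absolutely irreducible representation spans the full endomorphism ring

* `span_range_residual` : Burnside for a `ResidualGaloisRep` (basis free form of S53/Burnside)
* `span_range_adic`     : Nakayama lift to a `GaloisRepAdic` over a local ring
* `eq_zero_of_trace_mul_eq_zero` : `tr (X ρ(g)) = 0` for all `g` implies `X = 0`
-/

set_option autoImplicit false

open IsLocalRing TensorProduct

namespace Fermat.Agent.ES.S31

local notation "GalQ" => (AlgebraicClosure ℚ ≃ₐ[ℚ] AlgebraicClosure ℚ)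

theorem span_aux {k : Type} [Field k] {V : Type} [AddCommGroup V] [Module k V]
    (r : GalQ → Module.End k V) (Mbar : GalQ → Matrix (Fin 2) (Fin 2) k)
    (e' : V ≃ₗ[k] (Fin 2 → k)) (h : ∀ σ x, e' (r σ x) = (Mbar σ).mulVec (e' x))
    (hspan : Submodule.span k (Set.range Mbar) = ⊤) :
    Submodule.span k (Set.range r) = ⊤ := by
  let Ψ : Matrix (Fin 2) (Fin 2) k ≃ₗ[k] Module.End k V :=
    (Matrix.toLin' : Matrix (Fin 2) (Fin 2) k ≃ₗ[k] _).trans e'.symm.conj
  have hΨ : ∀ σ, Ψ (Mbar σ) = r σ := by
    intro σ
    refine LinearMap.ext fun x => ?_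
    show e'.symm ((Matrix.toLin' (Mbar σ)) (e'.symm.symm x)) = _
    rw [LinearEquiv.symm_symm, LinearEquiv.symm_apply_eq, Matrix.toLin'_apply]
    exact (h σ x).symm
  have key : ∀ m ∈ Submodule.span k (Set.range Mbar), Ψ m ∈ Submodule.span k (Set.range r) := by
    intro m hm
    induction hm using Submodule.span_induction with
    | mem y hy => obtain ⟨σ, rfl⟩ := hy; rw [hΨ]; exact Submodule.subset_span ⟨σ, rfl⟩
    | zero => rw [map_zero]; exact Submodule.zero_mem _
    | add y z _ _ hy hz => rw [map_add]; exact Submodule.add_mem _ hy hz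
    | smul a y _ hy => rw [map_smul]; exact Submodule.smul_mem _ _ hy
  rw [eq_top_iff]
  intro f _
  have := key (Ψ.symm f) (by rw [hspan]; exact Submodule.mem_top)
  rwa [LinearEquiv.apply_symm_apply] at this

theorem span_range_residual {k : Type} [Field k] (ρbar : ResidualGaloisRep k)
    (habs : ρbar.IsAbsolutelyIrreducible) :
    Submodule.span k (Set.range ρbar.ρ) = ⊤ := by
  obtain ⟨Mbar, hf, ⟨e⟩, hspan⟩ := Fermat.Agent.S53.exists_matrix_form ρbar habs
  exact span_aux (fun σ => ρbar.ρ σ) (fun σ => Mbar σ) e.toLinearEquiv (fun σ x => e.map_apply σ x) hspan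
section Adic

variable {A : Type} [CommRing A] [IsLocalRing A] {V : Type} [AddCommGroup V] [Module A V]

/-- an endomorphism of a free module of rank two whose reduction vanishes lies in `𝔪 • End`. -/
theorem mem_smul_top_of_baseChange_eq_zero (b : Module.Basis (Fin 2) A V) (h : Module.End A V)
    (h0 : h.baseChange (ResidueField A) = 0) :
    h ∈ maximalIdeal A • (⊤ : Submodule A (Module.End A V)) := by
  classical
  have hm : ∀ i j, LinearMap.toMatrix b b h i j ∈ maximalIdeal A := by
    intro i j
    have h1 := LinearMap.toMatrix_baseChange (ResidueField A) h b b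
    rw [h0, map_zero] at h1
    have h2 := congrFun (congrFun h1 i) j
    rw [Matrix.map_apply, Matrix.zero_apply] at h2
    exact (residue_eq_zero_iff _).mp h2.symm
  have hsum : h = ∑ i, ∑ j, LinearMap.toMatrix b b h i j •
      Matrix.toLin b b (Matrix.single i j (1 : A)) := by
    apply (LinearMap.toMatrix b b).injective
    simp only [map_sum, map_smul, LinearMap.toMatrix_toLin]
    conv_lhs => rw [Matrix.matrix_eq_sum_single (LinearMap.toMatrix b b h)]
    refine Finset.sum_congr rfl fun i _ => Finset.sum_congr rfl fun j _ => ?_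
    rw [Matrix.smul_single, smul_eq_mul, mul_one]
  rw [hsum]
  exact Submodule.sum_mem _ fun i _ => Submodule.sum_mem _ fun j _ =>
    Submodule.smul_mem_smul (hm i j) Submodule.mem_top

/-- Nakayama lift of a spanning statement. -/
theorem span_eq_top_of_residual {G : Type*} (b : Module.Basis (Fin 2) A V)
    (r : G → Module.End A V)
    (hres : Submodule.span (ResidueField A)
      (Set.range fun g => (r g).baseChange (ResidueField A)) = ⊤) :
    Submodule.span A (Set.range r) = ⊤ := by
  classical
  have : Module.Finite A V := Module.Finite.of_basis b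
  have : Module.Free A V := Module.Free.of_basis b
  set W : Submodule A (Module.End A V) := Submodule.span A (Set.range r) with hW
  have key : ∀ x ∈ Submodule.span (ResidueField A)
      (Set.range fun g => (r g).baseChange (ResidueField A)),
      ∃ w ∈ W, LinearMap.baseChange (ResidueField A) w = x := by
    intro x hx
    induction hx using Submodule.span_induction with
    | mem y hy => obtain ⟨g, rfl⟩ := hy; exact ⟨r g, Submodule.subset_span ⟨g, rfl⟩, rfl⟩
    | zero => exact ⟨0, W.zero_mem, LinearMap.baseChange_zero⟩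
    | add y z _ _ hy hz =>
      obtain ⟨w, hw, rfl⟩ := hy
      obtain ⟨w', hw', rfl⟩ := hz
      exact ⟨w + w', W.add_mem hw hw', LinearMap.baseChange_add _ _⟩
    | smul c y _ hy =>
      obtain ⟨w, hw, rfl⟩ := hy
      obtain ⟨a, rfl⟩ := residue_surjective c
      refine ⟨a • w, W.smul_mem a hw, ?_⟩
      rw [LinearMap.baseChange_smul]
      refine LinearMap.ext fun x => ?_
      rw [LinearMap.smul_apply, LinearMap.smul_apply]
      exact (algebraMap_smul (ResidueField A) a _).symm
  rw [eq_top_iff]
  refine Submodule.le_of_le_smul_of_le_jacobson_bot (I := maximalIdeal A) (N' := ⊤)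
    (Module.Finite.fg_top) (IsLocalRing.maximalIdeal_le_jacobson _) ?_
  intro f _
  obtain ⟨w, hw, hwf⟩ := key (LinearMap.baseChange (ResidueField A) f)
    (by rw [hres]; exact Submodule.mem_top)
  have h0 : (f - w).baseChange (ResidueField A) = 0 := by
    rw [LinearMap.baseChange_sub, hwf]
    refine LinearMap.ext fun x => ?_
    rw [LinearMap.sub_apply, sub_self, LinearMap.zero_apply]
  have := mem_smul_top_of_baseChange_eq_zero b (f - w) h0
  have e : f = w + (f - w) := by abel
  rw [e]
  exact Submodule.add_mem_sup hw this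

omit [IsLocalRing A] in
/-- the trace form is nondegenerate on `End` of a free module of rank two. -/
theorem eq_zero_of_trace_mul_eq_zero_aux (b : Module.Basis (Fin 2) A V) (X : Module.End A V)
    (hall : ∀ Y : Module.End A V, LinearMap.trace A V (X * Y) = 0) : X = 0 := by
  classical
  apply (LinearMap.toMatrix b b).injective
  rw [map_zero]
  ext i j
  have h := hall (Matrix.toLin b b (Matrix.single j i (1 : A)))
  rw [LinearMap.trace_eq_matrix_trace A b, Module.End.mul_eq_comp, LinearMap.toMatrix_comp b b b,
    LinearMap.toMatrix_toLin] at h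
  rw [Matrix.zero_apply, ← h]
  fin_cases i <;> fin_cases j <;>
    simp [Matrix.trace_fin_two, Matrix.mul_apply, Matrix.single_apply]

end Adic

variable {A : Type} [CommRing A] [IsLocalRing A]

/-- **Burnside + Nakayama**. -/
theorem span_range_adic (ρ : GaloisRepAdic A) (habs : ρ.residual.IsAbsolutelyIrreducible) :
    Submodule.span A (Set.range ρ.ρ) = ⊤ :=
  span_eq_top_of_residual (Module.finBasisOfFinrankEq A ρ.V ρ.finrank_eq) (fun g => ρ.ρ g)
    (span_range_residual ρ.residual habs)

/-- the trace form detects zero on the span of the image of `ρ`. -/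
theorem eq_zero_of_trace_mul_eq_zero (ρ : GaloisRepAdic A)
    (habs : ρ.residual.IsAbsolutelyIrreducible) (X : Module.End A ρ.V)
    (hX : ∀ g : GalQ, LinearMap.trace A ρ.V (X * ρ.ρ g) = 0) : X = 0 := by
  refine eq_zero_of_trace_mul_eq_zero_aux (Module.finBasisOfFinrankEq A ρ.V ρ.finrank_eq) X ?_
  intro Y
  have hY : Y ∈ Submodule.span A (Set.range ρ.ρ) := by
    rw [span_range_adic ρ habs]; exact Submodule.mem_top
  induction hY using Submodule.span_induction with
  | mem y hy => obtain ⟨g, rfl⟩ := hy; exact hX g
  | zero => simp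
  | add y z _ _ hy hz => rw [mul_add, map_add, hy, hz, add_zero]
  | smul a y _ hy => rw [mul_smul_comm, map_smul, hy, smul_zero]

end Fermat.Agent.ES.S31
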