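import Fermat.Prelude.Def_CuspForm_HeckeGaloisRepDatum
import Fermat.Agent.Lib.FrobDensity.Apps
import Fermat.Agent.ES.S31.Span
import Fermat.Agent.ES.S31.Dickson
import Fermat.Agent.ES.S31.Roots
import Mathlib.RingTheory.RootsOfUnity.AlgebraicallyClosed

/-!
# ES/S31 : a Hecke-Galois datum is unramified outside `S`, from an Eichler-Shimura tower

`ESTower p N S` is the interface which the ES project has to provide (for `V r = Kum N (p^r)`).
`unramified_of_tower` deduces the statement of S31 from it.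
-/

set_option autoImplicit false

open IsLocalRing CuspForm Polynomial

namespace Fermat.Agent.ES.S31

local notation "Qbar" => AlgebraicClosure ℚ
local notation "GalQ" => (AlgebraicClosure ℚ ≃ₐ[ℚ] AlgebraicClosure ℚ)

/-- The output of the Eichler-Shimura project needed for S31: a tower of `p^r`-torsion Galois
modules with a Hecke action, the Eichler-Shimura relation, unramifiedness, and (asymptotic)
faithfulness of the Hecke action. -/
structure ESTower (p N : ℕ) [NeZero N] (S : Set ℕ) : Type 1 where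
  V : ℕ → Type
  [grp : ∀ r, AddCommGroup (V r)]
  gal : ∀ r, GalQ →* AddMonoid.End (V r)
  hecke : ∀ r, heckeAlgebra N 2 S →+* AddMonoid.End (V r)
  tors : ∀ r (x : V r), p ^ r • x = 0
  level : ∀ r, GaloisFactorsThroughFiniteLevel (gal r)
  comm : ∀ r t g, Commute (hecke r t) (gal r g)
  es : ∀ r (ℓ : ℕ) (hℓ : ℓ.Prime) (hℓN : ¬ ℓ ∣ N) (hℓS : ℓ ∉ S) (A : ValuationSubring Qbar),
    A.LiesOverPrime ℓ → ∀ φ : GalQ, A.IsFrobeniusAt φ ℓ →
      gal r φ * gal r φ - hecke r (heckeAlgebra.T hℓ hℓN hℓS) * gal r φ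
        + (ℓ : AddMonoid.End (V r)) = 0
  unram : ∀ r (q : ℕ), q.Prime → ¬ q ∣ N → q ≠ p → ∀ A : ValuationSubring Qbar,
    A.LiesOverPrime q → ∀ σ ∈ A.inertiaSubgroupIn ℚ, gal r σ = 1
  faith : ∃ c : ℕ, ∀ r (t : heckeAlgebra N 2 S), hecke (r + c) t = 0 →
    ∃ t' : heckeAlgebra N 2 S, t = (p ^ r : ℕ) • t'

attribute [instance] ESTower.grp

section Trace

variable {R : Type*} [CommRing R] {V : Type*} [AddCommGroup V] [Module R V]
  [Module.Free R V] [Module.Finite R V]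

/-- traces of powers are Dickson polynomials in trace and determinant. -/
theorem trace_pow_eq_dick [Nontrivial R] (hV : Module.finrank R V = 2) (f : Module.End R V)
    (j : ℕ) : LinearMap.trace R V (f ^ j) = dick (LinearMap.trace R V f) (LinearMap.det f) j := by
  induction j using Nat.twoStepInduction with
  | zero => simp [LinearMap.trace_one, hV]
  | one => simp
  | more j h0 h1 => rw [Fermat.Agent.FD.trace_pow_rec hV, dick_succ_succ, h0, h1]

/-- congruent endomorphisms have congruent traces. -/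
theorem trace_sub_mem (I : Ideal R) (f g : Module.End R V)
    (h : ∀ v, f v - g v ∈ I • (⊤ : Submodule R V)) :
    LinearMap.trace R V f - LinearMap.trace R V g ∈ I := by
  have h1 := LinearMap.trace_baseChange (R := R) (M := V) f (R ⧸ I)
  have h2 := LinearMap.trace_baseChange (R := R) (M := V) g (R ⧸ I)
  rw [Fermat.Agent.FD.baseChange_quotient_eq I f g h, h2] at h1
  rw [← Ideal.Quotient.eq]
  exact h1.symm

end Trace

section Main

variable {p : ℕ} {N : ℕ} [NeZero N] {S : Finset ℕ}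
  {𝒪 : Type} [CommRing 𝒪] [IsDomain 𝒪] [IsDiscreteValuationRing 𝒪]
  [IsAdicComplete (maximalIdeal 𝒪) 𝒪]
  {θ : heckeAlgebra N 2 (↑S : Set ℕ) →+* ResidueField 𝒪}
  {T : Type} [CommRing T] [IsLocalRing T] [IsNoetherianRing T]
  [IsAdicComplete (maximalIdeal T) T] [Algebra 𝒪 T] [IsLocalHom (algebraMap 𝒪 T)]
  [Module.Finite 𝒪 T] [Module.Free 𝒪 T]

theorem pow_apply_root {φ : GalQ} {z : Qbar} {ℓ : ℕ} (h : φ z = z ^ ℓ) (j : ℕ) :
    (φ ^ j) z = z ^ (ℓ ^ j) := by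
  induction j with
  | zero => simp
  | succ j ih =>
    rw [pow_succ', AlgEquiv.mul_apply, ih, map_pow, h, ← pow_mul, pow_succ']

/-- trace and determinant of a Frobenius element in a Hecke-Galois datum. -/
theorem trace_det_frob (H : HeckeGaloisRepDatum N (↑S : Set ℕ) 𝒪 θ T)
    {ℓ : ℕ} (hℓ : ℓ.Prime) (hℓN : ¬ ℓ ∣ N) (hℓS : ℓ ∉ (↑S : Set ℕ))
    (A : ValuationSubring Qbar) (hA : A.LiesOverPrime ℓ) (φ : GalQ) (hφ : A.IsFrobeniusAt φ ℓ) :
    LinearMap.trace T H.ρ.V (H.ρ.ρ φ) = H.π (heckeAlgebra.T hℓ hℓN hℓS) ∧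
      LinearMap.det (H.ρ.ρ φ) = (ℓ : T) := by
  have h := H.charpoly_frob ℓ hℓ hℓN hℓS A hA φ hφ
  rw [Fermat.Agent.FD.charpoly_rank_two H.ρ.finrank_eq] at h
  constructor
  · have := congrArg (fun p => p.coeff 1) h
    simpa [coeff_X, coeff_C] using this
  · have := congrArg (fun p => p.coeff 0) h
    simpa [coeff_X, coeff_C] using this

/-- **Approximation by Frobenius powers.** -/
theorem approx (hp : p.Prime) (hpS : p ∈ S) (hNS : ∀ q : ℕ, q.Prime → q ∣ N → q ∈ S)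
    (H : HeckeGaloisRepDatum N (↑S : Set ℕ) 𝒪 θ T) (E : ESTower p N (↑S : Set ℕ)) (r n : ℕ)
    (ζ : Qbar) (hζ : ζ ^ (p ^ r) = 1) (g : GalQ) :
    ∃ (t : heckeAlgebra N 2 (↑S : Set ℕ)) (d : ℕ),
      E.gal r g * E.gal r g - E.hecke r t * E.gal r g + (d : AddMonoid.End (E.V r)) = 0 ∧
      LinearMap.trace T H.ρ.V (H.ρ.ρ g) - H.π t ∈ maximalIdeal T ^ n ∧
      g ζ = ζ ^ d := by
  obtain ⟨L₁, hL₁, h₁⟩ := E.level r
  obtain ⟨L₂, hL₂, h₂⟩ := H.ρ.isAdicContinuous n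
  have hpr : p ^ r ≠ 0 := pow_ne_zero _ hp.ne_zero
  have hζint : IsIntegral ℚ ζ :=
    IsIntegral.of_pow (Nat.pos_of_ne_zero hpr) (by rw [hζ]; exact isIntegral_one)
  let L₃ : IntermediateField ℚ Qbar := IntermediateField.adjoin ℚ {ζ}
  have hL₃ : FiniteDimensional ℚ L₃ := IntermediateField.adjoin.finiteDimensional hζint
  have hζL₃ : ζ ∈ L₃ := IntermediateField.mem_adjoin_simple_self ℚ ζ
  obtain ⟨ℓ, A, φ, U, hℓ, hℓS, hA, hφ, hU, -, -, ⟨j, hj⟩⟩ :=
    Fermat.Agent.FD.exists_frobenius_field (L₁ ⊔ L₂ ⊔ L₃) g S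
  have hℓN : ¬ ℓ ∣ N := fun h => hℓS (hNS ℓ hℓ h)
  have hℓp : ¬ ℓ ∣ p ^ r := fun h =>
    hℓS (((Nat.prime_dvd_prime_iff_eq hℓ hp).mp (hℓ.dvd_of_dvd_pow h)) ▸ hpS)
  have hℓS' : ℓ ∉ (↑S : Set ℕ) := fun h => hℓS (Finset.mem_coe.mp h)
  obtain ⟨u, hu, e⟩ : ∃ u ∈ U, φ ^ j = g * u := ⟨g⁻¹ * φ ^ j, hj, by group⟩
  have hu₁ : ∀ x ∈ L₁, u x = x := fun x hx =>
    hU u hu x ((le_sup_left : L₁ ≤ L₁ ⊔ L₂).trans le_sup_left hx)
  have hu₂ : ∀ x ∈ L₂, u x = x := fun x hx =>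
    hU u hu x ((le_sup_right : L₂ ≤ L₁ ⊔ L₂).trans le_sup_left hx)
  have hu₃ : u ζ = ζ := hU u hu ζ ((le_sup_right : L₃ ≤ L₁ ⊔ L₂ ⊔ L₃) hζL₃)
  refine ⟨dick (heckeAlgebra.T hℓ hℓN hℓS') (ℓ : heckeAlgebra N 2 (↑S : Set ℕ)) j, ℓ ^ j,
    ?_, ?_, ?_⟩
  · have hg : E.gal r g = E.gal r φ ^ j := by
      rw [← map_pow, e, map_mul, h₁ u hu₁, mul_one]
    have := pow_quadratic (E.gal r φ) (E.hecke r (heckeAlgebra.T hℓ hℓN hℓS'))
      (ℓ : AddMonoid.End (E.V r)) (E.comm r _ φ) (E.es r ℓ hℓ hℓN hℓS' A hA φ hφ) j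
    rw [hg, map_dick, map_natCast, Nat.cast_pow]
    exact this
  · obtain ⟨htr, hdet⟩ := trace_det_frob H hℓ hℓN hℓS' A hA φ hφ
    have h1 : H.π (dick (heckeAlgebra.T hℓ hℓN hℓS') (ℓ : heckeAlgebra N 2 (↑S : Set ℕ)) j) =
        LinearMap.trace T H.ρ.V (H.ρ.ρ φ ^ j) := by
      rw [trace_pow_eq_dick H.ρ.finrank_eq, map_dick, map_natCast, htr, hdet]
    rw [h1]
    refine trace_sub_mem _ _ _ fun v => ?_
    have h5 := h₂ u hu₂ v
    have h6 : H.ρ.ρ g v - (H.ρ.ρ φ ^ j) v = - H.ρ.ρ g (H.ρ.ρ u v - v) := by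
      rw [← map_pow, e, map_mul, map_sub, neg_sub]
      rfl
    rw [h6]
    exact Submodule.neg_mem _ (Submodule.smul_top_le_comap_smul_top _ (H.ρ.ρ g) h5)
  · have h1 := pow_apply_root (frobenius_apply_root A hℓ hA hℓp hφ hζ) j
    rw [e, AlgEquiv.mul_apply, hu₃] at h1
    exact h1

theorem natCast_end_eq_of_modEq {M : Type*} [AddCommGroup M] {m a b : ℕ}
    (hm : ∀ x : M, m • x = 0) (hab : a ≡ b [MOD m]) :
    (a : AddMonoid.End M) = (b : AddMonoid.End M) := by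
  have key : ∀ (c : ℕ) (x : M), c • x = (c % m) • x := by
    intro c x
    conv_lhs => rw [← Nat.mod_add_div c m, add_smul, mul_comm, mul_smul, hm, smul_zero, add_zero]
  ext x
  rw [AddMonoid.End.natCast_apply, AddMonoid.End.natCast_apply, key a, key b, hab]

/-- **S31 from an Eichler-Shimura tower.** -/
theorem unramified_of_tower (hp : p.Prime) (hp𝒪 : (p : 𝒪) ∈ maximalIdeal 𝒪) (hpS : p ∈ S)
    (hNS : ∀ q : ℕ, q.Prime → q ∣ N → q ∈ S)
    (H : HeckeGaloisRepDatum N (↑S : Set ℕ) 𝒪 θ T) (E : ESTower p N (↑S : Set ℕ))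
    (q : ℕ) (hq : q.Prime) (hqS : q ∉ S) : H.ρ.IsUnramifiedAt q := by
  intro P hP σ hσ
  have hqN : ¬ q ∣ N := fun h => hqS (hNS q hq h)
  have hqp : q ≠ p := fun h => hqS (h ▸ hpS)
  have hpT : (p : T) ∈ maximalIdeal T := by
    have : (p : T) = algebraMap 𝒪 T (p : 𝒪) := (map_natCast _ _).symm
    rw [this]
    exact map_nonunit (algebraMap 𝒪 T) _ hp𝒪
  have key : ∀ (g : GalQ) (n : ℕ), LinearMap.trace T H.ρ.V (H.ρ.ρ (σ * g)) -
      LinearMap.trace T H.ρ.V (H.ρ.ρ g) ∈ maximalIdeal T ^ n := by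
    intro g n
    obtain ⟨c, hc⟩ := E.faith
    have : NeZero (p : ℚ) := ⟨by exact_mod_cast hp.ne_zero⟩
    obtain ⟨ζ, hζ⟩ := HasEnoughRootsOfUnity.exists_primitiveRoot Qbar (p ^ (n + c))
    have hq' : ¬ q ∣ p ^ (n + c) := fun h =>
      hqp ((Nat.prime_dvd_prime_iff_eq hq hp).mp (hq.dvd_of_dvd_pow h))
    obtain ⟨t₁, d₁, a₁, b₁, c₁⟩ := approx hp hpS hNS H E (n + c) n ζ hζ.pow_eq_one g
    obtain ⟨t₂, d₂, a₂, b₂, c₂⟩ := approx hp hpS hNS H E (n + c) n ζ hζ.pow_eq_one (σ * g)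
    have hG : E.gal (n + c) (σ * g) = E.gal (n + c) g := by
      rw [map_mul, E.unram (n + c) q hq hqN hqp P hP σ hσ, one_mul]
    have hd : ζ ^ d₁ = ζ ^ d₂ := by
      rw [← c₂, AlgEquiv.mul_apply, c₁, map_pow,
        inertia_apply_root P hq hP hq' hσ hζ.pow_eq_one]
    have hfin : IsOfFinOrder ζ :=
      isOfFinOrder_iff_pow_eq_one.mpr ⟨p ^ (n + c), pow_pos hp.pos _, hζ.pow_eq_one⟩
    have hmod : d₁ ≡ d₂ [MOD p ^ (n + c)] := by
      have := hfin.pow_eq_pow_iff_modEq.mp hd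
      rwa [← hζ.eq_orderOf] at this
    have hdd := natCast_end_eq_of_modEq (E.tors (n + c)) hmod
    rw [hG, ← hdd] at a₂
    have h1 : (E.hecke (n + c) t₁ - E.hecke (n + c) t₂) * E.gal (n + c) g = 0 := by
      rw [sub_mul]
      have := a₂.trans a₁.symm
      have h2 := add_right_cancel this
      have h3 := sub_right_injective h2
      rw [h3, sub_self]
    have hinv : E.gal (n + c) g * E.gal (n + c) g⁻¹ = 1 := by
      rw [← map_mul, mul_inv_cancel, map_one]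
    have h2 : E.hecke (n + c) (t₁ - t₂) = 0 := by
      rw [map_sub]
      calc E.hecke (n + c) t₁ - E.hecke (n + c) t₂
          = (E.hecke (n + c) t₁ - E.hecke (n + c) t₂) *
              (E.gal (n + c) g * E.gal (n + c) g⁻¹) := by rw [hinv, mul_one]
        _ = 0 := by rw [← mul_assoc, h1, zero_mul]
    obtain ⟨t', ht'⟩ := hc n _ h2
    have h3 : H.π t₁ - H.π t₂ ∈ maximalIdeal T ^ n := by
      rw [← map_sub, ht', map_nsmul, nsmul_eq_mul, Nat.cast_pow]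
      exact Ideal.mul_mem_right _ _ (Ideal.pow_mem_pow hpT n)
    have e : LinearMap.trace T H.ρ.V (H.ρ.ρ (σ * g)) - LinearMap.trace T H.ρ.V (H.ρ.ρ g) =
        (LinearMap.trace T H.ρ.V (H.ρ.ρ (σ * g)) - H.π t₂) -
          (LinearMap.trace T H.ρ.V (H.ρ.ρ g) - H.π t₁) - (H.π t₁ - H.π t₂) := by ring
    rw [e]
    exact Ideal.sub_mem _ (Ideal.sub_mem _ b₂ b₁) h3
  have htr : ∀ g : GalQ, LinearMap.trace T H.ρ.V (H.ρ.ρ (σ * g)) =
      LinearMap.trace T H.ρ.V (H.ρ.ρ g) := by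
    intro g
    rw [← sub_eq_zero]
    refine IsHausdorff.haus (I := maximalIdeal T) (M := T) inferInstance _ fun n => ?_
    rw [SModEq.zero, smul_eq_mul, Ideal.mul_top]
    exact key g n
  have hX := eq_zero_of_trace_mul_eq_zero H.ρ H.residual_absIrr (H.ρ.ρ σ - 1) (fun g => by
    rw [sub_mul, one_mul, map_sub, ← map_mul, htr, sub_self])
  exact sub_eq_zero.mp hX

end Main

end Fermat.Agent.ES.S31
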